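/-
MLT / L1 / Nine (helper5): **the eigensystem of `W` in `J₀(M)[p]` is detected away from one more
prime `r`**.

If `dlwEig M p W = ⊥` (no non-zero `x ∈ J₀(M)[p]` with `T_ℓ x = a_ℓ(W) x` for all good `ℓ ∤ M`,
`ℓ ≠ p`), then there is no non-zero `x ∈ J₀(M)[p]` with `T_ℓ x = a_ℓ(W) x` for all good `ℓ ∤ M`,
`ℓ ≠ p`, `ℓ ≠ r` either (`r ≠ p` a prime, `W[p]` irreducible, `p` odd).

Proof.  The space `V'` of such `x` is finite and Galois stable; a minimal stable subgroup `V₀` is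
`≅ W[p]` (`dlw_iso_of_ES`, which only needs Eichler–Shimura outside a finite set).  If `r` is good
and `r ∤ M`, Eichler–Shimura at `r` on `J₀(M)[p]` and Cayley–Hamilton on `W[p]` give
`T_r (φ y) = a_r (φ y)` for `y ∈ V₀` and a Frobenius `φ` at `r`; `φ` is bijective on `V₀`, so
`V₀ ≤ dlwEig M p W`.
-/
import Mathlib
import Fermat.Agent.Lib.Delta.Wire.D1
import Fermat.Agent.Lib.S58.LocalLin

set_option autoImplicit false
set_option linter.unusedSectionVars false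
set_option linter.unusedVariables false
set_option linter.style.haveILetI false

namespace Fermat.Agent.MLT

open AlgebraicCurve ModularCurve Fermat.Agent.T1 Fermat.Agent.T3 Fermat.Agent.Alpha
  Fermat.Agent.Delta Fermat.Agent.S58

local notation "Qb" => AlgebraicClosure ℚ
local notation "GQ" => (AlgebraicClosure ℚ ≃ₐ[ℚ] AlgebraicClosure ℚ)

section

variable (N : ℕ) [NeZero N]

/-- the subgroup of `J₀(N)[p]` on which the Hecke operators away from `r` act through the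
`a_ℓ(W)` -/
def mltl9Eig (p r : ℕ) (W : WeierstrassCurve ℤ) : AddSubgroup (JZero N) where
  carrier := {x | p • x = 0 ∧ ∀ (ℓ : ℕ) (hℓ : ℓ.Prime), ¬ ℓ ∣ N → W.IsGoodPrimeFor ℓ → ℓ ≠ p →
    ℓ ≠ r → heckeOperatorBar N ⟨ℓ, hℓ⟩ x = W.apOfModel ℓ • x}
  zero_mem' := ⟨smul_zero _, fun ℓ hℓ _ _ _ _ => by rw [map_zero, smul_zero]⟩
  add_mem' := by
    rintro x y ⟨hx, hx'⟩ ⟨hy, hy'⟩
    refine ⟨by rw [nsmul_add, hx, hy, add_zero], fun ℓ hℓ h1 h2 h3 h4 => ?_⟩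
    rw [map_add, hx' ℓ hℓ h1 h2 h3 h4, hy' ℓ hℓ h1 h2 h3 h4, zsmul_add]
  neg_mem' := by
    rintro x ⟨hx, hx'⟩
    refine ⟨by rw [neg_nsmul, hx, neg_zero], fun ℓ hℓ h1 h2 h3 h4 => ?_⟩
    rw [map_neg, hx' ℓ hℓ h1 h2 h3 h4, zsmul_neg]

variable {N}

theorem mltl9_eig_smul_mem {p r : ℕ} (hp0 : p ≠ 0) {W : WeierstrassCurve ℤ} (σ : GQ)
    {x : JZero N} (hx : x ∈ mltl9Eig N p r W) : σ • x ∈ mltl9Eig N p r W := by
  obtain ⟨hx, hx'⟩ := hx
  refine ⟨by rw [smul_comm p σ x, hx, smul_zero], fun ℓ hℓ h1 h2 h3 h4 => ?_⟩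
  rw [dlw_hecke_galois N hℓ h1 hp0 σ x (by rw [natCast_zsmul]; exact hx), hx' ℓ hℓ h1 h2 h3 h4]
  exact map_zsmul (DistribSMul.toAddMonoidHom (JZero N) σ) _ x

theorem mltl9_eig_finite {p r : ℕ} (hp0 : p ≠ 0) (W : WeierstrassCurve ℤ) :
    Finite ↥(mltl9Eig N p r W) := by
  haveI := alpf_finite N p hp0
  refine Finite.of_injective
    (fun x : ↥(mltl9Eig N p r W) => (⟨(x : JZero N), (Submodule.mem_torsionBy_iff _ _).mpr (by
      rw [natCast_zsmul]; exact x.2.1)⟩ : ↥(Submodule.torsionBy ℤ (JZero N) (p : ℤ)))) ?_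
  intro x y h
  exact Subtype.ext (congrArg (fun z : ↥(Submodule.torsionBy ℤ (JZero N) (p : ℤ)) => (z : JZero N)) h)

/-- **the eigensystem of `W` is detected away from `r`** -/
theorem mltl9_eig_bot {p : ℕ} [hp : Fact p.Prime] (hp2 : p ≠ 2) (W : WeierstrassCurve ℤ)
    (hΔ : W.Δ ≠ 0) (hirr : W.ModRepIsIrreducible p) {r : ℕ} (hr : r.Prime) (hrp : r ≠ p)
    (hEig : dlwEig N p W = ⊥) : mltl9Eig N p r W = ⊥ := by
  classical
  have hp0 : p ≠ 0 := hp.out.ne_zero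
  by_contra hne
  -- the easy cases: `r` is not an index of `dlwEig`
  by_cases hrgood : ¬ r ∣ N ∧ W.IsGoodPrimeFor r
  swap
  · apply hne
    rw [eq_bot_iff, ← hEig]
    rintro x ⟨hx, hx'⟩
    refine ⟨hx, fun ℓ hℓ h1 h2 h3 => hx' ℓ hℓ h1 h2 h3 ?_⟩
    rintro rfl
    exact hrgood ⟨h1, h2⟩
  obtain ⟨hrN, hrg⟩ := hrgood
  haveI := mltl9_eig_finite (N := N) (r := r) hp0 W
  obtain ⟨V₀, hle, hV₀ne, hstab, hmin⟩ := dlw_exists_minimal (G := GQ) (mltl9Eig N p r W) hne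
    (fun σ x hx => mltl9_eig_smul_mem hp0 σ hx)
  haveI : Finite V₀ := Finite.of_injective (fun x : V₀ => (⟨x.1, hle x.2⟩ : mltl9Eig N p r W))
    (fun x y h => Subtype.ext (congrArg (fun z : mltl9Eig N p r W => (z : JZero N)) h))
  have htor : ∀ x ∈ V₀, p • x = 0 := fun x hx => (hle hx).1
  have hlevel := dlw_level_of_finite N hp0 V₀ htor
  obtain ⟨ψ, hψ⟩ := dlw_iso_of_ES V₀ hp2 hV₀ne htor hstab hmin hlevel W hΔ hirr
    (insert r N.primeFactors)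
    (by
      intro ℓ hℓ hℓT hgood hℓp B φ hB hφ x hx
      rw [Finset.mem_insert, not_or] at hℓT
      have hℓN : ¬ ℓ ∣ N := fun h => hℓT.2 (Nat.mem_primeFactors.mpr ⟨hℓ, h, NeZero.ne N⟩)
      have hℓp' : ¬ ℓ ∣ p := fun h => hℓp ((Nat.prime_dvd_prime_iff_eq hℓ hp.out).mp h)
      have h1 := dlw_ES N hℓ hℓN hℓp' B hB φ hφ x (htor x hx)
      have h2 := (hle (hstab φ x hx)).2 ℓ hℓ hℓN hgood hℓp hℓT.1
      rw [h2] at h1
      exact h1)
  -- a Frobenius at `r`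
  obtain ⟨B, φ, hB, hφ⟩ := Fermat.Agent.Lib.Helper6.exists_frobenius r hr
  have hrp' : ¬ r ∣ p := fun h => hrp ((Nat.prime_dvd_prime_iff_eq hr hp.out).mp h)
  -- Cayley–Hamilton on `W[p]`
  obtain ⟨hfree, hfin, hrank⟩ := s58m_free W hΔ hp.out (pow_one p).symm
  have hU2 : Module.finrank (ZMod p) (S58Tors W p) = 2 := hrank one_ne_zero
  obtain ⟨htr, hdet⟩ := s58_et W hΔ r p 1 p hr hrg hp.out (Ne.symm hrp) (pow_one p).symm B hB φ hφ
  have hCH : ∀ Q : S58Tors W p, φ • φ • Q - W.apOfModel r • (φ • Q) + r • Q = 0 := by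
    intro Q
    haveI := hfree
    haveI := hfin
    haveI : Nontrivial (ZMod p) := ZMod.nontrivial_iff.mpr hp.out.ne_one
    have h := s58l_cayley hU2 (s58Gal W p φ) Q
    rw [htr, hdet, Int.cast_smul_eq_zsmul, Nat.cast_smul_eq_nsmul] at h
    exact h
  -- transport to `V₀`
  have hCHV : ∀ y ∈ V₀, φ • φ • y - W.apOfModel r • (φ • y) + r • y = 0 := by
    intro y hy
    obtain ⟨Q, hQ⟩ := ψ.surjective ⟨y, hy⟩
    have hy' : y = ((ψ Q : ↥V₀) : JZero N) := by rw [hQ]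
    have h := congrArg (fun Q' => ((ψ Q' : ↥V₀) : JZero N)) (hCH Q)
    simp only [map_add, map_sub, map_zsmul, map_nsmul, map_zero, AddSubgroup.coe_add,
      AddSubgroup.coe_sub, AddSubgroup.coe_zsmul, AddSubgroup.coe_nsmul, AddSubgroup.coe_zero,
      hψ] at h
    rw [hy']
    exact h
  -- `T_r = a_r` on `φ V₀ = V₀`
  have hTr : ∀ y ∈ V₀, heckeOperatorBar N ⟨r, hr⟩ y = W.apOfModel r • y := by
    intro y hy
    have hy1 : φ⁻¹ • y ∈ V₀ := hstab φ⁻¹ y hy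
    have h1 := dlw_ES N hr hrN hrp' B hB φ hφ (φ⁻¹ • y) (htor _ hy1)
    have h2 := hCHV (φ⁻¹ • y) hy1
    rw [smul_inv_smul] at h1 h2
    have h3 : heckeOperatorBar N ⟨r, hr⟩ y = φ • y + r • (φ⁻¹ • y) := by
      rw [sub_add_eq_add_sub, sub_eq_zero] at h1
      exact h1.symm
    have h4 : W.apOfModel r • y = φ • y + r • (φ⁻¹ • y) := by
      rw [sub_add_eq_add_sub, sub_eq_zero] at h2
      exact h2.symm
    rw [h3, h4]
  -- conclusion
  apply hV₀ne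
  rw [eq_bot_iff, ← hEig]
  intro y hy
  refine ⟨htor y hy, fun ℓ hℓ h1 h2 h3 => ?_⟩
  by_cases hℓr : ℓ = r
  · subst hℓr
    exact hTr y hy
  · exact (hle hy).2 ℓ hℓ h1 h2 h3 hℓr

end

end Fermat.Agent.MLT
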