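/-
MLT / L1 / Nine (helper5): **the reduction commutes with the norm** of a finite extension of function
fields with compatible Gauss rings, when the degree does not drop.

`dE : TbBase K E k Eb`, `d : TbBase K F k Fb`, `φ : E →ₐ[K] F`, `φb : Eb →ₐ[k] Fb`, compatible
(`Mltl9Compat`).  If `[F : E] = [Fb : Eb] > 0` then `N_{F/E}` maps `d.Ov` into `dE.Ov` and
`res (N Y) = N̄ (res Y)`.

Proof: lifts `y_i` of an `Eb`-basis `ȳ_i` of `Fb` are "orthonormal": `∑ φ(a_i) y_i ∈ d.Ov` forces
`a_i ∈ dE.Ov`, and the reduction of the sum is `∑ φb(res a_i) ȳ_i`.  So the `y_i` are an `E`-basis of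
`F`, the matrix of the multiplication by `Y ∈ d.Ov` has entries in `dE.Ov` and reduces to the matrix
of the multiplication by `res Y`.
-/
import Mathlib
import Fermat.Prelude.Def_AlgebraicCurve_Correspondence
import Fermat.Agent.Lib.T1.Core.Lattice1

set_option autoImplicit false
set_option linter.unusedSectionVars false
set_option linter.unusedVariables false
set_option linter.style.haveILetI false

namespace Fermat.Agent.MLT

open Fermat.Agent.T1 AlgebraicCurve

variable {K E F k Eb Fb : Type*} [Field K] [Field E] [Field F] [Algebra K E] [Algebra K F]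
  [Field k] [Field Eb] [Field Fb] [Algebra k Eb] [Algebra k Fb]

/-- compatibility of two Gauss rings along an extension of function fields -/
structure Mltl9Compat (dE : TbBase K E k Eb) (d : TbBase K F k Fb) (φ : E →ₐ[K] F)
    (φb : Eb →ₐ[k] Fb) : Prop where
  map_mem : ∀ f : E, f ∈ dE.Ov → φ f ∈ d.Ov
  res_map : ∀ (f : E) (hf : f ∈ dE.Ov), d.res ⟨φ f, map_mem f hf⟩ = φb (dE.res ⟨f, hf⟩)

section Scale

variable (dE : TbBase K E k Eb)

/-- a finite family of functions, not all zero, can be scaled simultaneously into the Gauss ring with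
a non-zero reduction -/
theorem mltl9_exists_scale {ι : Type*} [Fintype ι] (a : ι → E) (j : ι) (hj : a j ≠ 0) :
    ∃ c : K, c ≠ 0 ∧ ∃ h : ∀ i, c • a i ∈ dE.Ov, ∃ i₀, dE.res ⟨c • a i₀, h i₀⟩ ≠ 0 := by
  classical
  have hnorm : ∀ i, ∃ c : K, c ≠ 0 ∧ ∃ h : c • a i ∈ dE.Ov,
      (a i ≠ 0 → dE.res ⟨c • a i, h⟩ ≠ 0) := by
    intro i
    by_cases hi : a i = 0
    · refine ⟨1, one_ne_zero, ?_, fun h => absurd hi h⟩
      rw [hi, smul_zero]
      exact dE.Ov.zero_mem
    · obtain ⟨c, hc0, h, hres⟩ := dE.normalize (a i) hi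
      exact ⟨c, hc0, h, fun _ => hres⟩
  choose cc hcc0 hccmem hccres using hnorm
  -- the index where the scaling factor is smallest
  set s : Finset ι := Finset.univ.filter (fun i => a i ≠ 0) with hs
  have hsne : s.Nonempty := ⟨j, Finset.mem_filter.mpr ⟨Finset.mem_univ _, hj⟩⟩
  obtain ⟨i₀, hi₀s, hi₀min⟩ := Finset.exists_min_image s (fun i => dE.A.valuation (cc i)) hsne
  have hi₀ : a i₀ ≠ 0 := (Finset.mem_filter.mp hi₀s).2
  have hmem : ∀ i, cc i₀ • a i ∈ dE.Ov := by
    intro i
    by_cases hi : a i ≠ 0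
    · have hle := hi₀min i (Finset.mem_filter.mpr ⟨Finset.mem_univ _, hi⟩)
      have hq : cc i₀ / cc i ∈ dE.A := by
        rw [← ValuationSubring.valuation_le_one_iff, map_div₀]
        exact div_le_one_of_le₀ hle zero_le
      have h := dE.smul_mem ⟨cc i₀ / cc i, hq⟩ (hccmem i)
      have heq : (cc i₀ / cc i) • cc i • a i = cc i₀ • a i := by
        rw [smul_smul, div_mul_cancel₀ _ (hcc0 i)]
      rw [← heq]
      exact h
    · rw [not_not] at hi
      rw [hi, smul_zero]
      exact dE.Ov.zero_mem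
  refine ⟨cc i₀, hcc0 i₀, hmem, i₀, ?_⟩
  exact hccres i₀ hi₀

end Scale

section Ortho

variable {dE : TbBase K E k Eb} {d : TbBase K F k Fb} {φ : E →ₐ[K] F} {φb : Eb →ₐ[k] Fb}
  (hc : Mltl9Compat dE d φ φb)
  {ι : Type*} [Fintype ι] (y : ι → F) (hy : ∀ i, y i ∈ d.Ov)
  (hind : ∀ b : ι → Eb, ∑ i, φb (b i) * d.res ⟨y i, hy i⟩ = 0 → ∀ i, b i = 0)

include hc in
/-- the reduction of a combination with coefficients in the Gauss ring -/
theorem mltl9_res_comb (a : ι → E) (ha : ∀ i, a i ∈ dE.Ov)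
    (h : ∑ i, φ (a i) * y i ∈ d.Ov) :
    d.res ⟨∑ i, φ (a i) * y i, h⟩ = ∑ i, φb (dE.res ⟨a i, ha i⟩) * d.res ⟨y i, hy i⟩ := by
  rw [d.res_sum' Finset.univ (fun i => φ (a i) * y i)
    (fun i => d.Ov.mul_mem (hc.map_mem _ (ha i)) (hy i)) h]
  refine Finset.sum_congr rfl fun i _ => ?_
  rw [d.res_mul' (hc.map_mem _ (ha i)) (hy i), hc.res_map]

include hc hind in
/-- lifts of an independent family are independent -/
theorem mltl9_comb_eq_zero (a : ι → E) (h0 : ∑ i, φ (a i) * y i = 0) : ∀ i, a i = 0 := by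
  by_contra hne
  rw [not_forall] at hne
  obtain ⟨j, hj⟩ := hne
  obtain ⟨c, hc0, hmem, i₀, hi₀⟩ := mltl9_exists_scale dE a j hj
  have hsum : ∑ i, φ (c • a i) * y i = 0 := by
    have : ∀ i, φ (c • a i) * y i = c • (φ (a i) * y i) := by
      intro i
      rw [map_smul, smul_mul_assoc]
    simp_rw [this]
    rw [← Finset.smul_sum, h0, smul_zero]
  have hsmem : ∑ i, φ (c • a i) * y i ∈ d.Ov := by
    rw [hsum]; exact d.Ov.zero_mem
  have h1 := mltl9_res_comb hc y hy (fun i => c • a i) hmem hsmem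
  have h2 : d.res ⟨∑ i, φ (c • a i) * y i, hsmem⟩ = 0 := by
    rw [d.res_congr hsmem hsum]
    exact d.res_zero' _
  rw [h2] at h1
  exact hi₀ (hind _ h1.symm i₀)

include hc hind in
/-- **orthogonality**: a combination in the Gauss ring has its coefficients in the Gauss ring -/
theorem mltl9_coeff_mem (a : ι → E) (h : ∑ i, φ (a i) * y i ∈ d.Ov) : ∀ i, a i ∈ dE.Ov := by
  by_contra hne
  rw [not_forall] at hne
  obtain ⟨j, hj⟩ := hne
  have hj0 : a j ≠ 0 := by
    rintro h0
    apply hj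
    rw [h0]
    exact dE.Ov.zero_mem
  obtain ⟨c, hc0, hmem, i₀, hi₀⟩ := mltl9_exists_scale dE a j hj0
  -- `c` lies in the maximal ideal
  have hcinv : c⁻¹ ∉ dE.A := by
    intro hci
    apply hj
    have h1 := dE.smul_mem ⟨c⁻¹, hci⟩ (hmem j)
    have heq : c⁻¹ • c • a j = a j := by rw [smul_smul, inv_mul_cancel₀ hc0, one_smul]
    rw [← heq]
    exact h1
  have hcA : c ∈ dE.A := (dE.A.mem_or_inv_mem c).resolve_right hcinv
  have hcm : (⟨c, hcA⟩ : ↥dE.A) ∈ IsLocalRing.maximalIdeal ↥dE.A := by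
    rw [IsLocalRing.mem_maximalIdeal, mem_nonunits_iff]
    intro hu
    apply hcinv
    obtain ⟨b, hb⟩ := isUnit_iff_exists_inv.mp hu
    have h1 : c * (b : K) = 1 := by
      have := congrArg Subtype.val hb
      simpa using this
    have h2 : (b : K) = c⁻¹ := eq_inv_of_mul_eq_one_right h1
    rw [← h2]
    exact b.2
  have hres0 : dE.resA ⟨c, hcA⟩ = 0 := (dE.resA_eq_zero_iff _).mpr hcm
  -- the scaled combination reduces to zero
  have hcE : algebraMap K E c ∈ dE.Ov := dE.algebraMap_mem ⟨c, hcA⟩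
  have hcEres : dE.res ⟨algebraMap K E c, hcE⟩ = 0 := by
    rw [dE.res_algebraMap ⟨c, hcA⟩, hres0, map_zero]
  have hsum : ∑ i, φ (c • a i) * y i = φ (algebraMap K E c) * ∑ i, φ (a i) * y i := by
    rw [Finset.mul_sum]
    refine Finset.sum_congr rfl fun i _ => ?_
    rw [Algebra.smul_def, map_mul, mul_assoc]
  have hsmem : ∑ i, φ (c • a i) * y i ∈ d.Ov := by
    rw [hsum]
    exact d.Ov.mul_mem (hc.map_mem _ hcE) h
  have h1 := mltl9_res_comb hc y hy (fun i => c • a i) hmem hsmem
  have h2 : d.res ⟨∑ i, φ (c • a i) * y i, hsmem⟩ = 0 := by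
    rw [d.res_congr hsmem hsum, d.res_mul' (hc.map_mem _ hcE) h, hc.res_map _ hcE, hcEres,
      map_zero, zero_mul]
  rw [h2] at h1
  exact hi₀ (hind _ h1.symm i₀)

end Ortho

section Norm

variable {dE : TbBase K E k Eb} {d : TbBase K F k Fb} {φ : E →ₐ[K] F} {φb : Eb →ₐ[k] Fb}
  (hc : Mltl9Compat dE d φ φb)

include hc in
/-- **the reduction commutes with the norm** when the degree does not drop -/
theorem mltl9_res_norm
    (hdeg : finrankAlong K φ = finrankAlong k φb) (hpos : 0 < finrankAlong k φb)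
    (Y : F) (hY : Y ∈ d.Ov) :
    letI := algebraAlong φ
    letI := algebraAlong φb
    ∃ h : Algebra.norm E Y ∈ dE.Ov,
      dE.res ⟨Algebra.norm E Y, h⟩ = Algebra.norm Eb (d.res ⟨Y, hY⟩) := by
  classical
  letI := algebraAlong φ
  letI := algebraAlong φb
  have hsmulF : ∀ (a : E) (f : F), a • f = φ a * f := fun a f => rfl
  have hsmulFb : ∀ (a : Eb) (f : Fb), a • f = φb a * f := fun a f => rfl
  set n := Module.finrank Eb Fb with hn
  have hnE : Module.finrank E F = n := hdeg
  haveI : Module.Finite Eb Fb := Module.finite_of_finrank_pos hpos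
  haveI : Module.Finite E F := Module.finite_of_finrank_pos (by rw [hnE]; exact hpos)
  let bb : Module.Basis (Fin n) Eb Fb := Module.finBasis Eb Fb
  -- lifts
  have hlift : ∀ i, ∃ s : ↥d.Ov, d.res s = bb i := fun i => d.res_surj (bb i)
  choose s hs using hlift
  let y : Fin n → F := fun i => (s i : F)
  have hy : ∀ i, y i ∈ d.Ov := fun i => (s i).2
  have hyres : ∀ i, d.res ⟨y i, hy i⟩ = bb i := fun i => hs i
  have hind : ∀ b : Fin n → Eb, ∑ i, φb (b i) * d.res ⟨y i, hy i⟩ = 0 → ∀ i, b i = 0 := by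
    intro b hb
    have h1 : ∑ i, b i • bb i = 0 := by
      rw [← hb]
      refine Finset.sum_congr rfl fun i _ => ?_
      rw [hsmulFb, hyres]
    exact Fintype.linearIndependent_iff.mp bb.linearIndependent b h1
  -- the lifts are a basis
  have hli : LinearIndependent E y := by
    rw [Fintype.linearIndependent_iff]
    intro a ha
    apply mltl9_comb_eq_zero hc y hy hind a
    rw [← ha]
    refine Finset.sum_congr rfl fun i _ => ?_
    rw [hsmulF]
  have hcard : Fintype.card (Fin n) = Module.finrank E F := by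
    rw [Fintype.card_fin, hnE]
  haveI : Nonempty (Fin n) := ⟨⟨0, hpos⟩⟩
  let b : Module.Basis (Fin n) E F := basisOfLinearIndependentOfCardEqFinrank hli hcard
  have hb : ∀ i, b i = y i := fun i => by
    show (basisOfLinearIndependentOfCardEqFinrank hli hcard) i = y i
    rw [coe_basisOfLinearIndependentOfCardEqFinrank]
  -- the matrix of the multiplication by `Y`
  set A : Matrix (Fin n) (Fin n) E := Algebra.leftMulMatrix b Y with hA
  have hcol : ∀ j, Y * y j = ∑ i, φ (A i j) * y i := by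
    intro j
    have h1 : Y * b j = ∑ i, b.repr (Y * b j) i • b i := (b.sum_repr (Y * b j)).symm
    rw [hb] at h1
    rw [h1]
    refine Finset.sum_congr rfl fun i _ => ?_
    rw [hsmulF, hb, hA, Algebra.leftMulMatrix_eq_repr_mul, hb]
  have hcolmem : ∀ j, ∑ i, φ (A i j) * y i ∈ d.Ov := by
    intro j
    rw [← hcol j]
    exact d.Ov.mul_mem hY (hy j)
  have hAmem : ∀ i j, A i j ∈ dE.Ov := fun i j =>
    mltl9_coeff_mem hc y hy hind (fun i => A i j) (hcolmem j) i
  -- the reduced matrix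
  let A' : Matrix (Fin n) (Fin n) ↥dE.Ov := fun i j => ⟨A i j, hAmem i j⟩
  have hA' : A = A'.map dE.Ov.subtype := by
    ext i j
    rfl
  have hAb : Algebra.leftMulMatrix bb (d.res ⟨Y, hY⟩) = A'.map dE.res := by
    ext i j
    rw [Algebra.leftMulMatrix_eq_repr_mul, Matrix.map_apply]
    have h1 : d.res ⟨Y, hY⟩ * bb j = ∑ i, dE.res (A' i j) • bb i := by
      rw [← hyres j, ← d.res_mul' hY (hy j), d.res_congr _ (hcol j),
        mltl9_res_comb hc y hy (fun i => A i j) (fun i => hAmem i j) (hcolmem j)]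
      refine Finset.sum_congr rfl fun i _ => ?_
      rw [hsmulFb, hyres]
    rw [h1, bb.repr_sum_self]
  have hdet : Algebra.norm E Y = ((A'.det : ↥dE.Ov) : E) := by
    rw [Algebra.norm_eq_matrix_det b Y, ← hA, hA']
    rw [← RingHom.mapMatrix_apply, ← RingHom.map_det]
    rfl
  refine ⟨hdet ▸ A'.det.2, ?_⟩
  rw [Algebra.norm_eq_matrix_det bb, hAb, ← RingHom.mapMatrix_apply, ← RingHom.map_det]
  congr 1
  exact Subtype.ext hdet

end Norm

end Fermat.Agent.MLT
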