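/-
MLT / L1 / Nine (helper5): the modular instance of the compatibility `Mltl9Compat` for the cover
`X₀(M e) → X₀(M)` and the degrees `[F_{Me} : F_M] = [F̄_{Me} : F̄_M] = ψ(M e) / ψ(M)`.
-/
import Mathlib
import Fermat.Agent.Lib.Ihara.B.Tau.Main
import Fermat.Agent.Lib.T1.GoodRed.BarDegree
import Fermat.Agent.Lib.Delta.Hecke.Bar
import Fermat.Agent.Lib.MLT.L1.Nine.ResNorm

set_option autoImplicit false
set_option linter.unusedSectionVars false
set_option linter.unusedVariables false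
set_option linter.style.haveILetI false
set_option synthInstance.maxHeartbeats 400000

namespace Fermat.Agent.MLT

open ModularCurve Fermat.Agent.T1 Fermat.Agent.T2 Fermat.Agent.TW Fermat.Agent.Delta
  Fermat.Agent.S33 Fermat.Agent.S05Lib AlgebraicCurve Fermat.Agent.Curve
  Fermat.Agent.T3 Fermat.Agent.Alpha ModularFormClass CongruenceSubgroup Fermat.Agent.S24Lib
  Fermat.Agent.Ihara IntermediateField

local notation "Qb" => AlgebraicClosure ℚ

noncomputable section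

attribute [local instance] s33g_neZero
attribute [local instance 5000] dlhAlgK

variable (𝔓 : FFPlace) (M e : ℕ) [NeZero M] [NeZero e]

/-- the inclusion `F̄_M ⊂ F̄_{Me}` of the reduced function fields -/
def mltl9Phib : ↥(tbBarF 𝔓 M) →ₐ[IsLocalRing.ResidueField ↥𝔓.P] ↥(tbBarF 𝔓 (M * e)) :=
  dlhAlphaC (IsLocalRing.ResidueField ↥𝔓.P) M e

theorem coe_mltl9Phib (f : ↥(tbBarF 𝔓 M)) :
    ((mltl9Phib 𝔓 M e f : ↥(tbBarF 𝔓 (M * e))) :
      LaurentSeries (IsLocalRing.ResidueField ↥𝔓.P)) = (f : LaurentSeries _) :=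
  coe_dlhAlphaC _ M e f

theorem mltl9_not_dvd_left {𝔓 : FFPlace} {M e : ℕ} (hK : ¬ 𝔓.p ∣ M * e) : ¬ 𝔓.p ∣ M :=
  fun h => hK (h.mul_right e)

theorem coe_heckeAlphaBar (f : ↥(modularFunctionFieldBar M)) :
    ((heckeAlphaBar Qb M e f : ↥(modularFunctionFieldBar (M * e))) : LaurentSeries Qb)
      = (f : LaurentSeries Qb) :=
  coe_dlwIncl (Dvd.intro e rfl : M ∣ M * e) f

/-- **the compatibility of the Gauss rings of `F_M` and `F_{Me}`** -/
theorem mltl9_compat (hK : ¬ 𝔓.p ∣ M * e) :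
    Mltl9Compat (t3aBase 𝔓 M (mltl9_not_dvd_left hK)) (t3aBase 𝔓 (M * e) hK)
      (heckeAlphaBar Qb M e) (mltl9Phib 𝔓 M e) where
  map_mem := by
    intro f hf
    rw [ihbt_mem_Ov_iff] at hf ⊢
    rw [coe_heckeAlphaBar]
    exact hf
  res_map := by
    intro f hf
    apply Subtype.ext
    rw [ihbt_coe_res, coe_mltl9Phib, ihbt_coe_res, coe_heckeAlphaBar]

theorem mltl9_alpha_jBar : heckeAlphaBar Qb M e (jBar M) = jBar (M * e) := Subtype.ext rfl

/-- `ψ(M) [F_{Me} : F_M] = ψ(Me)` -/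
theorem mltl9_finrank_zero :
    dedekindPsi M * finrankAlong Qb (heckeAlphaBar Qb M e) = dedekindPsi (M * e) := by
  have h := ta_finrank_tower (heckeAlphaBar Qb M e) (jBar M)
  rw [mltl9_alpha_jBar, finrank_jBar, finrank_jBar] at h
  exact h.symm

/-- `ψ(M) [F̄_{Me} : F̄_M] = ψ(Me)` -/
theorem mltl9_finrank_bar (hK : ¬ 𝔓.p ∣ M * e) :
    dedekindPsi M * finrankAlong (IsLocalRing.ResidueField ↥𝔓.P) (mltl9Phib 𝔓 M e)
      = dedekindPsi (M * e) := by
  haveI : IsAlgClosed (IsLocalRing.ResidueField ↥𝔓.P) := tb_isAlgClosed_residueField 𝔓.P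
  have h := ta_finrank_tower (mltl9Phib 𝔓 M e) (taBarJ (IsLocalRing.ResidueField ↥𝔓.P) M)
  have hj : mltl9Phib 𝔓 M e (taBarJ (IsLocalRing.ResidueField ↥𝔓.P) M)
      = taBarJ (IsLocalRing.ResidueField ↥𝔓.P) (M * e) := rfl
  rw [hj, ta_bar_finrank _ _ (tbq_natCast_ne_zero hK),
    ta_bar_finrank _ _ (tbq_natCast_ne_zero (mltl9_not_dvd_left hK))] at h
  exact h.symm

theorem mltl9_finrank_eq (hK : ¬ 𝔓.p ∣ M * e) :
    finrankAlong Qb (heckeAlphaBar Qb M e)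
      = finrankAlong (IsLocalRing.ResidueField ↥𝔓.P) (mltl9Phib 𝔓 M e) := by
  have h1 := mltl9_finrank_zero M e
  have h2 := mltl9_finrank_bar 𝔓 M e hK
  have hpos : 0 < dedekindPsi M := Fermat.Agent.Igusa.igPsi_pos (NeZero.ne M)
  exact Nat.eq_of_mul_eq_mul_left hpos (h1.trans h2.symm)

theorem mltl9_finrank_pos (hK : ¬ 𝔓.p ∣ M * e) :
    0 < finrankAlong (IsLocalRing.ResidueField ↥𝔓.P) (mltl9Phib 𝔓 M e) := by
  have h2 := mltl9_finrank_bar 𝔓 M e hK
  have hpos : 0 < dedekindPsi (M * e) := Fermat.Agent.Igusa.igPsi_pos (NeZero.ne (M * e))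
  rcases Nat.eq_zero_or_pos (finrankAlong (IsLocalRing.ResidueField ↥𝔓.P) (mltl9Phib 𝔓 M e))
    with h | h
  · rw [h, mul_zero] at h2
    omega
  · exact h

/-- `[F̄_{9M} : F̄_M] ∈ {9, 12}` -/
theorem mltl9_finrank_nine (hK : ¬ 𝔓.p ∣ M * 9) :
    finrankAlong (IsLocalRing.ResidueField ↥𝔓.P) (mltl9Phib 𝔓 M 9) = 9 ∨
      finrankAlong (IsLocalRing.ResidueField ↥𝔓.P) (mltl9Phib 𝔓 M 9) = 12 := by
  have h2 := mltl9_finrank_bar 𝔓 M 9 hK
  generalize finrankAlong (IsLocalRing.ResidueField ↥𝔓.P) (mltl9Phib 𝔓 M 9) = n at h2 ⊢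
  have hpos : 0 < dedekindPsi M := Fermat.Agent.Igusa.igPsi_pos (NeZero.ne M)
  have h9 : M * 9 = M * 3 * 3 := by ring
  have hM3 : M * 3 ≠ 0 := Nat.mul_ne_zero (NeZero.ne M) (by norm_num)
  rw [h9, Fermat.Agent.Igusa.igPsi_mul_prime_of_dvd Nat.prime_three hM3 (Dvd.intro_left M rfl)]
    at h2
  by_cases h3 : 3 ∣ M
  · left
    rw [Fermat.Agent.Igusa.igPsi_mul_prime_of_dvd Nat.prime_three (NeZero.ne M) h3] at h2
    have : dedekindPsi M * n = dedekindPsi M * 9 := by rw [h2]; ring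
    exact Nat.eq_of_mul_eq_mul_left hpos this
  · right
    rw [Fermat.Agent.Igusa.igPsi_mul_prime_of_not_dvd Nat.prime_three h3] at h2
    have : dedekindPsi M * n = dedekindPsi M * 12 := by rw [h2]; ring
    exact Nat.eq_of_mul_eq_mul_left hpos this

end

end Fermat.Agent.MLT
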