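/-
MLT / L1 / Nine (helper5): **the reduction of divisors commutes with `π^* π_*`**.

`F / E` a finite extension of function fields over `K` with compatible Gauss rings (`Mltl9Compat`),
good reduction of `F` (`T3aGood`), the degree does not drop, the norm formulas hold on both sides and
`Pic⁰ F` is divisible.  Then for every divisor `D` of degree `0` of `F`
`red (π^* π_* D) = π̄^* π̄_* (red D)`.

Proof.  The difference `Λ` of the two sides is additive and kills the principal divisors (conservation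
law + norm formulas + `res (N f) = N̄ (res f)`); so it factors through the divisible group `Pic⁰ F`
and takes values in the free abelian group `Div F̄`: it vanishes.
-/
import Mathlib
import Fermat.Agent.Lib.T3.Red.Pic
import Fermat.Agent.Lib.T3.Pull.Local
import Fermat.Agent.Lib.MLT.L1.Nine.ResNorm

set_option autoImplicit false
set_option linter.unusedSectionVars false
set_option linter.unusedVariables false
set_option linter.style.haveILetI false

namespace Fermat.Agent.MLT

open AlgebraicCurve Fermat.Agent.Curve Fermat.Agent.Curve.PlaceAux Fermat.Agent.T1 Fermat.Agent.T3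

variable {K E F k Eb Fb : Type*} [Field K] [Field E] [Field F] [Algebra K E] [Algebra K F]
  [Field k] [Field Eb] [Field Fb] [Algebra k Eb] [Algebra k Fb] [IsAlgClosed K] [IsAlgClosed k]
  [HasPrincipalDivisors K F] [HasPrincipalDivisors k Fb]
  {dE : TbBase K E k Eb} {d : TbBase K F k Fb} {ℓ : ℕ} {x : F} (hg : T3aGood d ℓ x)
  {φ : E →ₐ[K] F} {φb : Eb →ₐ[k] Fb} (hc : Mltl9Compat dE d φ φb)
  (hφ : φ.toRingHom.IsIntegral) (hφb : φb.toRingHom.IsIntegral)
  (hfin : FiniteAlong K φ) (hN : NormFormulaAlong K φ hfin)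
  (hfinb : FiniteAlong k φb) (hNb : NormFormulaAlong k φb hfinb)
  (hdeg : finrankAlong K φ = finrankAlong k φb) (hpos : 0 < finrankAlong k φb)

/-- the pull-back along `φ` of the divisor of `g` is the divisor of `φ g` -/
theorem mltl9_pullbackAlong_eq_ord {K E F : Type*} [Field K] [Field E] [Field F] [Algebra K E]
    [Algebra K F] [HasPrincipalDivisors K F] (φ : E →ₐ[K] F) (hφ : φ.toRingHom.IsIntegral)
    {g : E} {D : Divisor K E} (hD : ∀ v : Place K E, D v = v.ord g) (w : Place K F) :
    Divisor.pullbackAlong φ hφ D w = w.ord (φ g) := by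
  letI := algebraAlong φ
  haveI := isScalarTower_along φ
  haveI := isIntegral_along φ hφ
  exact Divisor.pullback_apply_eq_ord hD w

/-- the difference of the two sides -/
noncomputable def mltl9Lambda : Divisor K F →+ Divisor k Fb :=
  (Finsupp.mapDomain.addMonoidHom (t3aR hg)).comp
      ((Divisor.pullbackAlong φ hφ).comp (Divisor.pushforwardAlong φ hφ))
    - ((Divisor.pullbackAlong φb hφb).comp (Divisor.pushforwardAlong φb hφb)).comp
      (Finsupp.mapDomain.addMonoidHom (t3aR hg))

theorem mltl9Lambda_apply (D : Divisor K F) :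
    mltl9Lambda hg hφ hφb D =
      Finsupp.mapDomain (t3aR hg) (Divisor.pullbackAlong φ hφ (Divisor.pushforwardAlong φ hφ D))
        - Divisor.pullbackAlong φb hφb
            (Divisor.pushforwardAlong φb hφb (Finsupp.mapDomain (t3aR hg) D)) := rfl

include hc hN hNb hdeg hpos in
/-- `Λ` kills the principal divisors -/
theorem mltl9Lambda_principal (D : Divisor K F) (hD : D.IsPrincipal) :
    mltl9Lambda hg hφ hφb D = 0 := by
  obtain ⟨f₀, hf₀, hDf₀⟩ := hD
  obtain ⟨c, hc0, hcf, hcres⟩ := d.normalize f₀ hf₀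
  -- `f = c • f₀` is a Gauss unit with the same divisor
  obtain ⟨f, hfdef⟩ : ∃ f : F, f = c • f₀ := ⟨_, rfl⟩
  have hfO : f ∈ d.Ov := hfdef ▸ hcf
  have hfres : d.res ⟨f, hfO⟩ ≠ 0 := by
    subst hfdef
    exact hcres
  have hf0 : f ≠ 0 := t3a_ne_zero_of_res_ne_zero d hfO hfres
  have hDf : ∀ P : Place K F, D P = P.ord f := by
    intro P
    rw [hDf₀ P, hfdef, t3a_ord_smul P hc0 hf₀]
  -- the norm and its reduction
  obtain ⟨hNO', hNres'⟩ := mltl9_res_norm hc hdeg hpos f hfO
  have hNO : t3pNormAlong φ f ∈ dE.Ov := hNO'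
  have hNres : dE.res ⟨t3pNormAlong φ f, hNO⟩ = t3pNormAlong φb (d.res ⟨f, hfO⟩) := hNres'
  have hNres0 : dE.res ⟨t3pNormAlong φ f, hNO⟩ ≠ 0 := by
    rw [hNres]
    letI := algebraAlong φb
    haveI : Module.Finite Eb Fb := hfinb
    exact Algebra.norm_ne_zero_iff.mpr hfres
  have hφNO : φ (t3pNormAlong φ f) ∈ d.Ov := hc.map_mem _ hNO
  have hφNres : d.res ⟨φ (t3pNormAlong φ f), hφNO⟩ = φb (t3pNormAlong φb (d.res ⟨f, hfO⟩)) :=
    (hc.res_map (t3pNormAlong φ f) hNO).trans (congrArg φb hNres)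
  have hφNres0 : d.res ⟨φ (t3pNormAlong φ f), hφNO⟩ ≠ 0 := by
    rw [hc.res_map (t3pNormAlong φ f) hNO]
    exact (map_ne_zero φb).mpr hNres0
  -- the first term
  have h1 : ∀ w : Place K F,
      Divisor.pullbackAlong φ hφ (Divisor.pushforwardAlong φ hφ D) w
        = w.ord (φ (t3pNormAlong φ f)) := by
    intro w
    exact mltl9_pullbackAlong_eq_ord φ hφ
      (fun v => t3p_pushforwardAlong_eq_ord_norm φ hφ hfin hN hf0 hDf v) w
  have h2 : ∀ Q : Place k Fb,
      Finsupp.mapDomain (t3aR hg) (Divisor.pullbackAlong φ hφ (Divisor.pushforwardAlong φ hφ D)) Q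
        = Q.ord (d.res ⟨φ (t3pNormAlong φ f), hφNO⟩) :=
    fun Q => t3a_conservation hg hφNO hφNres0 _ h1 Q
  -- the second term
  have h3 : ∀ Q : Place k Fb, Finsupp.mapDomain (t3aR hg) D Q = Q.ord (d.res ⟨f, hfO⟩) :=
    fun Q => t3a_conservation hg hfO hfres D hDf Q
  have h4 : ∀ Q : Place k Fb,
      Divisor.pullbackAlong φb hφb
          (Divisor.pushforwardAlong φb hφb (Finsupp.mapDomain (t3aR hg) D)) Q
        = Q.ord (φb (t3pNormAlong φb (d.res ⟨f, hfO⟩))) := by
    intro Q
    exact mltl9_pullbackAlong_eq_ord φb hφb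
      (fun v => t3p_pushforwardAlong_eq_ord_norm φb hφb hfinb hNb hfres h3 v) Q
  ext Q
  rw [mltl9Lambda_apply, Finsupp.sub_apply, h2 Q, h4 Q, hφNres, sub_self, Finsupp.zero_apply]

include hc hN hNb hdeg hpos in
/-- **the reduction of divisors of degree `0` commutes with `π^* π_*`** -/
theorem mltl9_red_pull_push
    (hdiv : ∀ (m : ℕ), m ≠ 0 → ∀ y : Pic0 K F, ∃ z : Pic0 K F, m • z = y)
    (D : Divisor K F) (hD : D ∈ Divisor.degZero (K := K) (F := F)) :
    Finsupp.mapDomain (t3aR hg) (Divisor.pullbackAlong φ hφ (Divisor.pushforwardAlong φ hφ D))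
      = Divisor.pullbackAlong φb hφb
          (Divisor.pushforwardAlong φb hφb (Finsupp.mapDomain (t3aR hg) D)) := by
  have hΛ : mltl9Lambda hg hφ hφb D = 0 := by
    ext Q
    rw [Finsupp.zero_apply]
    -- the coefficient is divisible by every positive integer
    have hdvd : ∀ m : ℕ, m ≠ 0 → (m : ℤ) ∣ mltl9Lambda hg hφ hφb D Q := by
      intro m hm
      obtain ⟨z, hz⟩ := hdiv m hm (Pic0.mk ⟨D, hD⟩)
      obtain ⟨D', rfl⟩ := Pic0.mk_surjective z
      have h1 : Pic0.mk (⟨D, hD⟩ - m • D') = (0 : Pic0 K F) := by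
        show ((⟨D, hD⟩ - m • D' : Divisor.degZero (K := K) (F := F)) : Pic0 K F) = 0
        rw [QuotientAddGroup.mk_sub, QuotientAddGroup.mk_nsmul]
        exact sub_eq_zero.mpr hz.symm
      rw [t3a_pic0_mk_eq_zero_iff] at h1
      have h2 := mltl9Lambda_principal hg hc hφ hφb hfin hN hfinb hNb hdeg hpos _ h1
      have h3 : ((⟨D, hD⟩ - m • D' : Divisor.degZero (K := K) (F := F)) : Divisor K F)
          = D - m • (D' : Divisor K F) := by
        rw [AddSubgroup.coe_sub, AddSubgroup.coe_nsmul]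
      rw [h3, map_sub, map_nsmul, sub_eq_zero] at h2
      rw [h2, Finsupp.smul_apply, nsmul_eq_mul]
      exact Dvd.intro _ rfl
    have h := hdvd ((mltl9Lambda hg hφ hφb D Q).natAbs + 1) (Nat.succ_ne_zero _)
    by_contra hne
    have hle := Int.le_of_dvd (Int.natAbs_pos.mpr hne |> fun h => by exact_mod_cast h)
      ((Int.dvd_natAbs).mpr h)
    push_cast at hle
    omega
  rw [mltl9Lambda_apply, sub_eq_zero] at hΛ
  exact hΛ

end Fermat.Agent.MLT
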