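/-
MLT / L1 / Nine (helper5): the valuation of a norm over a discrete valuation ring, WITHOUT any
perfectness hypothesis (so that it applies to function fields in characteristic `q`).

`R` a DVR with fraction field `F`, `F'/F` finite, `S` the integral closure of `R` in `F'`
(a Dedekind domain with finitely many primes), all residue degrees `1`.  Then for `f : F'`, `f ≠ 0`,
`v_R (N_{F'/F} f) = ∏_Q v_Q f`.

The proof of `relNorm Q = m` replaces `Ideal.relNorm_eq_pow_of_isMaximal` (which needs a perfect
fraction field) by a counting argument: `relNorm Q = m ^ s_Q` with `s_Q ≥ 1`,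
`m ^ n = relNorm (m S) = ∏ m ^ (e_Q s_Q)` and `n = ∑ e_Q f_Q = ∑ e_Q`.
-/
import Mathlib
import Fermat.Agent.Lib.T3.Hecke.NormVal

set_option autoImplicit false
set_option linter.unusedSectionVars false
set_option linter.style.haveILetI false

namespace Fermat.Agent.MLT

open IsDedekindDomain WithZero Fermat.Agent.T3

section Prime

variable {R S : Type*} [CommRing R] [IsDomain R] [IsDiscreteValuationRing R]
  [CommRing S] [IsDedekindDomain S] [Algebra R S] [Module.Finite R S] [Module.IsTorsionFree R S]

/-- the relative norm of a prime of residue degree one is the maximal ideal (no perfectness) -/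
theorem mltl9_relNorm_eq
    (hdeg : ∀ Q : HeightOneSpectrum S, Q.asIdeal.inertiaDeg R = 1) (Q : HeightOneSpectrum S) :
    Ideal.relNorm R Q.asIdeal = IsLocalRing.maximalIdeal R := by
  classical
  set m : Ideal R := IsLocalRing.maximalIdeal R with hm
  have hm0 : m ≠ ⊥ := (t3hMax R).ne_bot
  haveI hmmax : m.IsMaximal := IsLocalRing.maximalIdeal.isMaximal R
  have hmtop : m ≠ ⊤ := hmmax.ne_top
  -- exponents
  have hex : ∀ q : m.primesOver S, ∃ s, Ideal.relNorm R q.1 = m ^ s := fun q =>
    Ideal.exists_relNorm_eq_pow_of_isPrime q.1 m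
  choose s hs using hex
  have hs1 : ∀ q : m.primesOver S, 1 ≤ s q := by
    intro q
    by_contra h
    have h0 : s q = 0 := by omega
    have h1 := hs q
    rw [h0, pow_zero, Ideal.one_eq_top] at h1
    have h2 : Ideal.relNorm R q.1 ≤ Ideal.comap (algebraMap R S) q.1 := Ideal.relNorm_le_comap R q.1
    rw [h1, top_le_iff] at h2
    have h3 : q.1.under R = m := (q.2.2.over).symm
    exact hmtop (h3 ▸ h2)
  -- the product formula
  have hprod : Ideal.map (algebraMap R S) m = ∏ P ∈ (m.primesOver S).toFinset,
      P ^ P.ramificationIdx R := Ideal.map_algebraMap_eq_finsetProd_pow hm0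
  have hnorm := congrArg (Ideal.relNorm R) hprod
  rw [Ideal.relNorm_algebraMap S m, map_prod] at hnorm
  have hprod2 : ∏ P ∈ (m.primesOver S).toFinset, Ideal.relNorm R (P ^ P.ramificationIdx R)
      = ∏ q : m.primesOver S, m ^ (s q * q.1.ramificationIdx R) := by
    rw [← Finset.prod_set_coe]
    refine Finset.prod_congr rfl fun q _ => ?_
    rw [map_pow, hs q, pow_mul]
  rw [hprod2, Finset.prod_pow_eq_pow_sum] at hnorm
  have hreg : IsLeftRegular m := IsLeftCancelMulZero.mul_left_cancel_of_ne_zero hm0
  have hnu : m ≠ 1 := by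
    rw [Ideal.one_eq_top]
    exact hmtop
  have hsum1 : Module.finrank R S = ∑ q : m.primesOver S, s q * q.1.ramificationIdx R :=
    hreg.pow_injective hnu hnorm
  have hsum2 : ∑ q : m.primesOver S, q.1.ramificationIdx R * q.1.inertiaDeg R
      = Module.finrank R S := Ideal.sum_ramification_inertia_eq_finrank m S
  -- `Q` as an element of `primesOver`
  haveI hlo : Q.asIdeal.LiesOver m := t3h_liesOver_maximalIdeal Q
  let q₀ : m.primesOver S := ⟨Q.asIdeal, Q.isPrime, hlo⟩
  have hdeg' : ∀ q : m.primesOver S, q.1.inertiaDeg R = 1 := by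
    intro q
    have hq0 : q.1 ≠ ⊥ := by
      intro h
      have h3 : q.1.under R = m := (q.2.2.over).symm
      rw [h, Ideal.under_bot] at h3
      exact hm0 h3.symm
    exact hdeg ⟨q.1, q.2.1, hq0⟩
  have hkey : ∑ q : m.primesOver S, (s q - 1) * q.1.ramificationIdx R = 0 := by
    have h1 : ∑ q : m.primesOver S, q.1.ramificationIdx R
        = ∑ q : m.primesOver S, s q * q.1.ramificationIdx R := by
      rw [← hsum1, ← hsum2]
      refine Finset.sum_congr rfl fun q _ => ?_
      rw [hdeg' q, mul_one]
    have h2 : ∑ q : m.primesOver S, s q * q.1.ramificationIdx R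
        = ∑ q : m.primesOver S, (s q - 1) * q.1.ramificationIdx R
          + ∑ q : m.primesOver S, q.1.ramificationIdx R := by
      rw [← Finset.sum_add_distrib]
      refine Finset.sum_congr rfl fun q _ => ?_
      have := hs1 q
      obtain ⟨k, hk⟩ := Nat.exists_eq_add_of_le this
      rw [hk]
      simp only [Nat.add_sub_cancel_left]
      ring
    omega
  have hq₀ := (Finset.sum_eq_zero_iff.mp hkey) q₀ (Finset.mem_univ _)
  have hpos : 0 < q₀.1.ramificationIdx R := by
    haveI : q₀.1.IsPrime := q₀.2.1
    exact Ideal.ramificationIdx_pos q₀.1 R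
  have hs0 : s q₀ = 1 := by
    rcases Nat.mul_eq_zero.mp hq₀ with h | h
    · have := hs1 q₀
      omega
    · omega
  have := hs q₀
  rw [hs0, pow_one] at this
  exact this

variable [Fintype (HeightOneSpectrum S)]

/-- valuation of the integral norm of a nonzero element (no perfectness) -/
theorem mltl9_intValuation_intNorm
    (hdeg : ∀ Q : HeightOneSpectrum S, Q.asIdeal.inertiaDeg R = 1) (s : S) (hs : s ≠ 0) :
    (t3hMax R).intValuation (Algebra.intNorm R S s) = ∏ Q : HeightOneSpectrum S, Q.intValuation s := by
  classical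
  haveI : IsPrincipalIdealRing S := t3h_isPrincipalIdealRing_of_fintype S
  induction s using UniqueFactorizationMonoid.induction_on_prime with
  | h₁ => exact absurd rfl hs
  | h₂ u hu =>
    have h1 : IsUnit (Algebra.intNorm R S u) := hu.map _
    rw [HeightOneSpectrum.intValuation_eq_one_iff.mpr]
    · symm
      apply Finset.prod_eq_one
      intro Q _
      rw [HeightOneSpectrum.intValuation_eq_one_iff]
      intro hmem
      exact Q.isPrime.ne_top (Ideal.eq_top_of_isUnit_mem _ hmem hu)
    · intro hmem
      exact (t3hMax R).isPrime.ne_top (Ideal.eq_top_of_isUnit_mem _ hmem h1)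
  | h₃ a p ha hp ih =>
    have ih' := ih ha
    rw [map_mul, map_mul]
    simp_rw [map_mul]
    rw [Finset.prod_mul_distrib, ih']
    congr 1
    -- the prime case
    have hp0 : p ≠ 0 := hp.ne_zero
    let Q₀ : HeightOneSpectrum S :=
      ⟨Ideal.span {p}, (Ideal.span_singleton_prime hp0).mpr hp, by
        rw [ne_eq, Ideal.span_singleton_eq_bot]; exact hp0⟩
    haveI hQmax : Q₀.asIdeal.IsMaximal := Q₀.isMaximal
    have hrel : Ideal.relNorm R Q₀.asIdeal = IsLocalRing.maximalIdeal R :=
      mltl9_relNorm_eq hdeg Q₀
    have hrel' : Ideal.span {Algebra.intNorm R S p} = IsLocalRing.maximalIdeal R := by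
      rw [← Ideal.relNorm_singleton]
      exact hrel
    have hN0 : Algebra.intNorm R S p ≠ 0 := by
      intro h0
      rw [h0] at hrel'
      have : IsLocalRing.maximalIdeal R = ⊥ := by
        rw [← hrel', Ideal.span_singleton_eq_bot]
      exact (t3hMax R).ne_bot this
    rw [HeightOneSpectrum.intValuation_singleton _ hN0 (by rw [t3hMax_asIdeal, hrel'])]
    rw [Finset.prod_eq_single Q₀]
    · exact (HeightOneSpectrum.intValuation_singleton _ hp0 rfl).symm
    · intro Q _ hQ
      rw [HeightOneSpectrum.intValuation_eq_one_iff]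
      intro hmem
      apply hQ
      have hle : Q₀.asIdeal ≤ Q.asIdeal := by
        show Ideal.span {p} ≤ Q.asIdeal
        rw [Ideal.span_le, Set.singleton_subset_iff]
        exact hmem
      exact (HeightOneSpectrum.ext (hQmax.eq_of_le Q.isPrime.ne_top hle)).symm
    · intro h
      exact absurd (Finset.mem_univ _) h

variable {F F' : Type*} [Field F] [Field F'] [Algebra R F] [IsFractionRing R F] [Algebra F F']
  [FiniteDimensional F F'] [Algebra S F'] [Algebra R F'] [IsScalarTower R S F']
  [IsScalarTower R F F'] [IsFractionRing S F'] [IsIntegralClosure S R F']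

/-- valuation of the norm of an element of `S` -/
theorem mltl9_valuation_norm_algebraMap
    (hdeg : ∀ Q : HeightOneSpectrum S, Q.asIdeal.inertiaDeg R = 1) (s : S) (hs : s ≠ 0) :
    (t3hMax R).valuation F (Algebra.norm F (algebraMap S F' s))
      = ∏ Q : HeightOneSpectrum S, Q.valuation F' (algebraMap S F' s) := by
  rw [← Algebra.algebraMap_intNorm (A := R) (B := S), HeightOneSpectrum.valuation_of_algebraMap,
    mltl9_intValuation_intNorm hdeg s hs]
  exact Finset.prod_congr rfl fun Q _ => (HeightOneSpectrum.valuation_of_algebraMap Q s).symm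

/-- **valuation of a norm**: `v_R (N f) = ∏_Q v_Q f` (no perfectness) -/
theorem mltl9_valuation_norm
    (hdeg : ∀ Q : HeightOneSpectrum S, Q.asIdeal.inertiaDeg R = 1) (f : F') (hf : f ≠ 0) :
    (t3hMax R).valuation F (Algebra.norm F f) = ∏ Q : HeightOneSpectrum S, Q.valuation F' f := by
  obtain ⟨a, b, hb, rfl⟩ := IsFractionRing.div_surjective (A := S) f
  have hb0 : b ≠ 0 := nonZeroDivisors.ne_zero hb
  have ha0 : a ≠ 0 := by
    rintro rfl
    apply hf
    rw [map_zero, zero_div]
  have hbF : algebraMap S F' b ≠ 0 := by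
    rwa [ne_eq, IsFractionRing.to_map_eq_zero_iff]
  have hmul : algebraMap S F' a / algebraMap S F' b * algebraMap S F' b = algebraMap S F' a :=
    div_mul_cancel₀ _ hbF
  have h1 : (t3hMax R).valuation F (Algebra.norm F (algebraMap S F' a / algebraMap S F' b))
      * (t3hMax R).valuation F (Algebra.norm F (algebraMap S F' b))
      = (t3hMax R).valuation F (Algebra.norm F (algebraMap S F' a)) := by
    rw [← map_mul, ← map_mul, hmul]
  have h2 : (∏ Q : HeightOneSpectrum S, Q.valuation F' (algebraMap S F' a / algebraMap S F' b))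
      * (∏ Q : HeightOneSpectrum S, Q.valuation F' (algebraMap S F' b))
      = ∏ Q : HeightOneSpectrum S, Q.valuation F' (algebraMap S F' a) := by
    rw [← Finset.prod_mul_distrib]
    refine Finset.prod_congr rfl fun Q _ => ?_
    rw [← map_mul, hmul]
  rw [mltl9_valuation_norm_algebraMap hdeg a ha0, mltl9_valuation_norm_algebraMap hdeg b hb0,
    ← h2] at h1
  have hne : ∏ Q : HeightOneSpectrum S, Q.valuation F' (algebraMap S F' b) ≠ 0 := by
    rw [Finset.prod_ne_zero_iff]
    intro Q _
    exact (Valuation.ne_zero_iff _).mpr hbF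
  exact mul_right_cancel₀ hne h1

end Prime

end Fermat.Agent.MLT
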