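/-
MLT / L1 / Nine (helper5): the norm formula `ord_v (N f) = ∑_{w ∣ v} ord_w f` and
`f_* div(f) = div(N f)` for a finite SEPARABLE extension of function fields over an algebraically
closed constant field of ARBITRARY characteristic (the `T3` version assumes characteristic zero).
-/
import Mathlib
import Fermat.Agent.Lib.T3.Hecke.Local
import Fermat.Agent.Lib.MLT.L1.Nine.NormVal

set_option autoImplicit false
set_option linter.unusedSectionVars false
set_option linter.style.haveILetI false

namespace Fermat.Agent.MLT

open AlgebraicCurve IsDedekindDomain WithZero Fermat.Agent.Curve Fermat.Agent.Curve.PlaceAux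
  Fermat.Agent.T3

variable {K F F' : Type*} [Field K] [Field F] [Field F'] [Algebra K F] [Algebra K F']
  [Algebra F F'] [IsScalarTower K F F'] [FiniteDimensional F F'] [Algebra.IsSeparable F F']
  (v : Place K F)

attribute [local instance] t3hS_isDedekindDomain t3hS_isFractionRing t3hS_moduleFinite
  t3hS_algebra t3hS_isScalarTower t3hS_fintype

variable [IsAlgClosed K]

theorem mltl9_adicValuation_norm {x' : F'} (hx' : IsFunctionFieldGen K F' x') (f : F')
    (hf : f ≠ 0) :
    v.adicValuation (Algebra.norm F f)
      = ∏ Q : HeightOneSpectrum (t3hS F' v), (t3hPlace v Q).adicValuation f := by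
  have h := mltl9_valuation_norm (R := v.toValuationSubring) (S := t3hS F' v) (F := F) (F' := F')
    (t3h_inertiaDeg_eq_one v hx') f hf
  rw [show v.adicValuation = (t3hMax v.toValuationSubring).valuation F from rfl, h]
  exact Finset.prod_congr rfl fun Q _ => (t3hPlace_adicValuation v Q f).symm

/-- **norm formula at a place** (any characteristic) -/
theorem mltl9_ord_norm {x' : F'} (hx' : IsFunctionFieldGen K F' x') (f : F') (hf : f ≠ 0) :
    v.ord (Algebra.norm F f) = ∑ Q : HeightOneSpectrum (t3hS F' v), (t3hPlace v Q).ord f := by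
  rw [Place.ord, mltl9_adicValuation_norm v hx' f hf, t3h_log_prod, ← Finset.sum_neg_distrib]
  · rfl
  · intro Q _
    exact (t3hPlace v Q).adicValuation_ne_zero hf

/-- **the norm formula** `f_* div(f) = div(N f)` (any characteristic) -/
theorem mltl9_pushforwardNormFormula {x' : F'} (hx' : IsFunctionFieldGen K F' x') :
    Divisor.PushforwardNormFormula K F F' := by
  classical
  intro f hf D hD v
  rw [Divisor.pushforward_apply, mltl9_ord_norm v hx' f hf, ← Finset.sum_filter]
  have h1 : ∑ Q : HeightOneSpectrum (t3hS F' v), (t3hPlace v Q).ord f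
      = ∑ w ∈ Finset.univ.image (t3hPlace (F' := F') v), w.ord f :=
    (Finset.sum_image (f := fun w : Place K F' => w.ord f) (g := t3hPlace (F' := F') v)
      (s := Finset.univ) fun Q _ Q' _ h => t3hPlace_injective v h).symm
  rw [h1]
  have hsub : D.support.filter (fun w => w.restrict F = v)
      ⊆ Finset.univ.image (t3hPlace (F' := F') v) := by
    intro w hw
    rw [Finset.mem_filter] at hw
    obtain ⟨Q, hQ⟩ := t3hPlace_surjective v w hw.2
    exact Finset.mem_image.mpr ⟨Q, Finset.mem_univ _, hQ⟩
  rw [← Finset.sum_subset hsub]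
  · refine Finset.sum_congr rfl fun w _ => ?_
    rw [t3h_place_inertiaDeg_eq_one hx' w, Nat.cast_one, mul_one, hD w]
  · intro w hw hw'
    obtain ⟨Q, -, rfl⟩ := Finset.mem_image.mp hw
    rw [Finset.mem_filter, not_and_or] at hw'
    rcases hw' with h | h
    · rw [Finsupp.mem_support_iff, not_not, hD] at h
      exact h
    · exact absurd (t3hPlace_restrict v Q) h

end Fermat.Agent.MLT
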