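/-
MLT / L1 / Nine (helper5): the norm formula along a homomorphism of function fields over an
algebraically closed field of arbitrary characteristic, for a separable extension; separability of
`F' / φ F` from the separability of `F' / K(φ x)`.
-/
import Mathlib
import Fermat.Agent.Lib.T3.Hecke.Along
import Fermat.Agent.Lib.MLT.L1.Nine.NormLocal

set_option autoImplicit false
set_option linter.unusedSectionVars false
set_option linter.style.haveILetI false

namespace Fermat.Agent.MLT

open AlgebraicCurve Fermat.Agent.Curve Fermat.Agent.T3 IntermediateField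

variable {K F F' : Type*} [Field K] [Field F] [Field F'] [Algebra K F] [Algebra K F']

/-- `F' / φ F` is separable if `F' / K(φ x)` is -/
theorem mltl9_isSeparableAlong (φ : F →ₐ[K] F') (x : F) [Algebra.IsSeparable K⟮φ x⟯ F'] :
    letI := algebraAlong φ
    Algebra.IsSeparable F F' := by
  letI := algebraAlong φ
  have h1 : (K⟮x⟯).map φ = K⟮φ x⟯ := by
    rw [IntermediateField.adjoin_map, Set.image_singleton]
  let e₁ : K⟮φ x⟯ ≃+* K⟮x⟯ :=
    (((K⟮x⟯).equivMap φ).trans (IntermediateField.equivOfEq h1)).toRingEquiv.symm
  haveI : Algebra.IsSeparable K⟮x⟯ F' := by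
    refine Algebra.IsSeparable.of_equiv_equiv e₁ (RingEquiv.refl F') ?_
    ext a
    obtain ⟨b, rfl⟩ := e₁.symm.surjective a
    rw [RingHom.comp_apply, RingHom.comp_apply]
    show algebraMap K⟮x⟯ F' (e₁ (e₁.symm b)) = algebraMap K⟮φ x⟯ F' (e₁.symm b)
    rw [RingEquiv.apply_symm_apply]
    rfl
  exact Algebra.isSeparable_tower_top_of_isSeparable K⟮x⟯ F F'

variable [IsAlgClosed K]

/-- **the norm formula along a separable homomorphism** (any characteristic) -/
theorem mltl9_normFormulaAlong {x' : F'} (hx' : IsFunctionFieldGen K F' x') (φ : F →ₐ[K] F')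
    (hfin : FiniteAlong K φ)
    (hsep : letI := algebraAlong φ; Algebra.IsSeparable F F') :
    NormFormulaAlong K φ hfin := by
  letI := algebraAlong φ
  haveI := isScalarTower_along φ
  haveI : Module.Finite F F' := hfin
  haveI : Algebra.IsSeparable F F' := hsep
  show Divisor.PushforwardNormFormula K F F'
  exact mltl9_pushforwardNormFormula hx'

end Fermat.Agent.MLT
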