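/-
MLT / L1 / Nine (helper5): `π^* π_* D = [F' : F] D` for a divisor `D` of `F'` a multiple of which is
the divisor of a function coming from `F` (norm formula along `φ`).
-/
import Mathlib
import Fermat.Agent.Lib.T3.Pull.Local
import Fermat.Agent.Lib.MLT.L1.Nine.Lambda

set_option autoImplicit false
set_option linter.unusedSectionVars false
set_option linter.unusedVariables false
set_option linter.style.haveILetI false

namespace Fermat.Agent.MLT

open AlgebraicCurve Fermat.Agent.Curve Fermat.Agent.T3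

variable {K F F' : Type*} [Field K] [Field F] [Field F'] [Algebra K F] [Algebra K F']
  [HasPrincipalDivisors K F']

/-- the norm of an element of the base -/
theorem mltl9_normAlong_map (φ : F →ₐ[K] F') (y : F) :
    t3pNormAlong φ (φ y) = y ^ finrankAlong K φ := by
  letI := algebraAlong φ
  exact Algebra.norm_algebraMap y

theorem mltl9_pull_push_of_smul (φ : F →ₐ[K] F') (hφ : φ.toRingHom.IsIntegral)
    (hfin : FiniteAlong K φ) (hN : NormFormulaAlong K φ hfin)
    (y : F) (hy : y ≠ 0) (m : ℕ) (hm : m ≠ 0) (D : Divisor K F')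
    (hD : ∀ Q : Place K F', (m : ℤ) * D Q = Q.ord (φ y)) :
    Divisor.pullbackAlong φ hφ (Divisor.pushforwardAlong φ hφ D)
      = (finrankAlong K φ : ℤ) • D := by
  have hφy : φ y ≠ 0 := (map_ne_zero φ).mpr hy
  have hDm : ∀ Q : Place K F', ((m : ℤ) • D) Q = Q.ord (φ y) := by
    intro Q
    rw [Finsupp.smul_apply, smul_eq_mul, hD Q]
  have h1 : ∀ v : Place K F, Divisor.pushforwardAlong φ hφ ((m : ℤ) • D) v
      = v.ord (y ^ finrankAlong K φ) := by
    intro v
    rw [t3p_pushforwardAlong_eq_ord_norm φ hφ hfin hN hφy hDm v, mltl9_normAlong_map]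
  have h2 : ∀ w : Place K F',
      Divisor.pullbackAlong φ hφ (Divisor.pushforwardAlong φ hφ ((m : ℤ) • D)) w
        = w.ord (φ (y ^ finrankAlong K φ)) :=
    fun w => mltl9_pullbackAlong_eq_ord φ hφ h1 w
  have hm' : (m : ℤ) ≠ 0 := by exact_mod_cast hm
  ext w
  have h3 := h2 w
  rw [map_zsmul, map_zsmul, Finsupp.smul_apply, smul_eq_mul, map_pow, t3a_ord_pow, ← hD w] at h3
  rw [Finsupp.smul_apply, smul_eq_mul]
  have h4 : (m : ℤ) * Divisor.pullbackAlong φ hφ (Divisor.pushforwardAlong φ hφ D) w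
      = (m : ℤ) * ((finrankAlong K φ : ℤ) * D w) := by
    rw [h3]; ring
  exact mul_left_cancel₀ hm' h4

end Fermat.Agent.MLT
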