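/-
MLT / L1 / Nine (helper5): **(B3) for the covers `X₀(9 M) → X₀(M)`, `M` odd, at the places over `2`**
(`MltL1CmpNine p`, `p ≥ 5`; contract of helper3, `Lib/MLT/L1/Two/Wire.lean`).

The involution of `Lib/Ihara/B/Cmp/Main.lean` (`e = 2`) is replaced by `π^* π_*`:
`x̄ = [div ȳ / p] ∈ Pic⁰(F̄_K)[p]`, `K = M e`, `ȳ ∈ F̄_M`.  Lift `x̄ = R x`, `z = π_* x ∈ J₀(M)`.  Then
`R (π^* z) = π̄^* π̄_* x̄ = [F̄_K : F̄_M] x̄` (`mltl9_red_pull_push`: the reduction commutes with `π^* π_*`).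
The killer `h` (from `dlwEig M p W = ⊥`, detected away from `3`: `mltl9_eig_bot`) gives
`0 = R (h π^* z) = θ(h) [F̄_K : F̄_M] x̄`, and `[F̄_{9M} : F̄_M] ∈ {9, 12}` is prime to `p ≥ 5`.
-/
import Mathlib
import Fermat.Agent.Lib.Ihara.B.Cmp.Final
import Fermat.Agent.Lib.MLT.L1.Nine.Inst
import Fermat.Agent.Lib.MLT.L1.Nine.NormAlong
import Fermat.Agent.Lib.MLT.L1.Nine.PullPush
import Fermat.Agent.Lib.MLT.L1.Nine.Eig3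

set_option autoImplicit false
set_option linter.unusedSectionVars false
set_option linter.unusedVariables false
set_option linter.style.haveILetI false
set_option synthInstance.maxHeartbeats 400000

namespace Fermat.Agent.MLT

open ModularCurve Fermat.Agent.T1 Fermat.Agent.T3 Fermat.Agent.Delta AlgebraicCurve
  Fermat.Agent.Curve Fermat.Agent.TW Fermat.Agent.Alpha Fermat.Agent.Mazur HahnSeries
  Fermat.Agent.Ihara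

local notation "Qb" => AlgebraicClosure ℚ
local notation "GQ" => (AlgebraicClosure ℚ ≃ₐ[ℚ] AlgebraicClosure ℚ)

noncomputable section

attribute [local instance 5000] dlhAlgK

section Bar

variable (𝔓 : FFPlace) (M e : ℕ) [NeZero M] [NeZero e]

theorem mltl9_phib_finite :
    FiniteAlong (IsLocalRing.ResidueField ↥𝔓.P) (mltl9Phib 𝔓 M e) :=
  t3h_finiteAlong (tbq_bar_isFunctionFieldGen 𝔓 M) (tbq_bar_isFunctionFieldGen 𝔓 (M * e))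
    (mltl9Phib 𝔓 M e)

theorem mltl9_phib_integral : (mltl9Phib 𝔓 M e).toRingHom.IsIntegral :=
  t3h_isIntegralAlong (tbq_bar_isFunctionFieldGen 𝔓 M) (tbq_bar_isFunctionFieldGen 𝔓 (M * e))
    (mltl9Phib 𝔓 M e)

theorem mltl9_phib_norm (hK : ¬ 𝔓.p ∣ M * e) :
    NormFormulaAlong (IsLocalRing.ResidueField ↥𝔓.P) (mltl9Phib 𝔓 M e)
      (mltl9_phib_finite 𝔓 M e) := by
  haveI : IsAlgClosed (IsLocalRing.ResidueField ↥𝔓.P) := tb_isAlgClosed_residueField 𝔓.P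
  refine mltl9_normFormulaAlong (tbq_bar_isFunctionFieldGen 𝔓 (M * e)) (mltl9Phib 𝔓 M e)
    (mltl9_phib_finite 𝔓 M e) ?_
  haveI : Algebra.IsSeparable
      ↥(IntermediateField.adjoin (IsLocalRing.ResidueField ↥𝔓.P)
        {mltl9Phib 𝔓 M e (tbBarJ 𝔓 M)}) ↥(tbBarF 𝔓 (M * e)) :=
    tbq_bar_isSeparable (𝔓 := 𝔓) (N := M * e) hK
  exact mltl9_isSeparableAlong (mltl9Phib 𝔓 M e) (tbBarJ 𝔓 M)

end Bar

section Red

variable (𝔓 : FFPlace) (M e : ℕ) [NeZero M] [NeZero e]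
  (h49 : 4 ∣ M * e ∨ 9 ∣ M * e) (hK : ¬ 𝔓.p ∣ M * e)

/-- **the reduction of `π^* π_*` of a lift of the Kummer class of a function of the lower level** -/
theorem mltl9_red_pull_class
    [HasPrincipalDivisors (IsLocalRing.ResidueField ↥𝔓.P) ↥(tbBarF 𝔓 (M * e))]
    {p : ℕ} (hp0 : p ≠ 0) (yb : (↥(tbBarF 𝔓 (M * e)))ˣ)
    (hybM : ((yb : ↥(tbBarF 𝔓 (M * e))) : LaurentSeries (IsLocalRing.ResidueField ↥𝔓.P))
      ∈ tbBarF 𝔓 M)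
    (hyb : ∀ s : Place (IsLocalRing.ResidueField ↥𝔓.P) ↥(tbBarF 𝔓 (M * e)),
      (p : ℤ) ∣ s.ord (yb : ↥(tbBarF 𝔓 (M * e)))) :
    ∃ z : JZero M,
      t3bRed (t3aOK 𝔓 (M * e) hK) (t3a_good_modular 𝔓 (M * e) h49 hK)
          (dlwPullDvd (Dvd.intro e rfl : M ∣ M * e) z)
        = ((finrankAlong (IsLocalRing.ResidueField ↥𝔓.P) (mltl9Phib 𝔓 M e) : ℕ) : ℤ)
            • alpfClass hp0 yb hyb := by
  haveI : IsAlgClosed (IsLocalRing.ResidueField ↥𝔓.P) := tb_isAlgClosed_residueField 𝔓.P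
  have hg := t3a_good_modular 𝔓 (M * e) h49 hK
  -- the divisor `div ȳ / p` and its lift
  obtain ⟨Db, hDbdef⟩ : ∃ Db : Divisor (IsLocalRing.ResidueField ↥𝔓.P) ↥(tbBarF 𝔓 (M * e)),
      Db = alpfDivQuot (K := IsLocalRing.ResidueField ↥𝔓.P) p yb := ⟨_, rfl⟩
  have hDbdeg : Db ∈ Divisor.degZero (K := IsLocalRing.ResidueField ↥𝔓.P)
      (F := ↥(tbBarF 𝔓 (M * e))) := by
    rw [hDbdef, Divisor.mem_degZero]
    exact alpfDivQuot_degree hp0 hyb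
  have hred := alpi_red_alpiLiftDiv 𝔓 (M * e) h49 hK Db
  have hdeg : alpiLiftDiv 𝔓 (M * e) h49 hK Db
      ∈ Divisor.degZero (K := Qb) (F := ↥(modularFunctionFieldBar (M * e))) := by
    rw [Divisor.mem_degZero, ← alpr_degree_red (t3a_good_modular 𝔓 (M * e) h49 hK), hred]
    exact hDbdeg
  obtain ⟨D, hDdef⟩ : ∃ D : Divisor Qb ↥(modularFunctionFieldBar (M * e)),
      D = alpiLiftDiv 𝔓 (M * e) h49 hK Db := ⟨_, rfl⟩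
  rw [← hDdef] at hred hdeg
  rw [alprRed_apply] at hred
  refine ⟨dlwPushA M e (Pic0.mk ⟨D, hdeg⟩), ?_⟩
  -- the function of the lower level
  obtain ⟨y₀, hy₀⟩ : ∃ y₀ : ↥(tbBarF 𝔓 M), mltl9Phib 𝔓 M e y₀ = (yb : ↥(tbBarF 𝔓 (M * e))) :=
    ⟨⟨_, hybM⟩, Subtype.ext (coe_mltl9Phib 𝔓 M e _)⟩
  have hy₀0 : y₀ ≠ 0 := by
    rintro rfl
    rw [map_zero] at hy₀
    exact yb.ne_zero hy₀.symm
  -- the reduction commutes with `π^* π_*`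
  have hΛ := mltl9_red_pull_push (t3a_good_modular 𝔓 (M * e) h49 hK) (mltl9_compat 𝔓 M e hK)
    (t3h_alphaIntegral M e) (mltl9_phib_integral 𝔓 M e) (t3h_alphaFinite M e) (t3h_alphaNorm M e)
    (mltl9_phib_finite 𝔓 M e) (mltl9_phib_norm 𝔓 M e hK) (mltl9_finrank_eq 𝔓 M e hK)
    (mltl9_finrank_pos 𝔓 M e hK)
    (fun m hm y => Fermat.Agent.Mazur.mzk_divisible (M * e) hm y) D hdeg
  rw [hred] at hΛ
  have hpp := mltl9_pull_push_of_smul (mltl9Phib 𝔓 M e) (mltl9_phib_integral 𝔓 M e)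
    (mltl9_phib_finite 𝔓 M e) (mltl9_phib_norm 𝔓 M e hK) y₀ hy₀0 p hp0 Db
    (by
      intro Q
      rw [hy₀, hDbdef, alpfDivQuot_apply]
      exact Int.mul_ediv_cancel' (hyb Q))
  rw [hpp] at hΛ
  -- assemble
  have h1 : dlwPullDvd (Dvd.intro e rfl : M ∣ M * e) (dlwPushA M e (Pic0.mk ⟨D, hdeg⟩))
      = Pic0.mk ⟨Divisor.pullbackAlong (heckeAlphaBar Qb M e) (t3h_alphaIntegral M e)
          (Divisor.pushforwardAlong (heckeAlphaBar Qb M e) (t3h_alphaIntegral M e) D),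
          Divisor.pullbackAlong_mem_degZero _ _ (t3h_alphaFundamental M e)
            (Divisor.pushforwardAlong_mem_degZero _ _ hdeg)⟩ := rfl
  rw [h1]
  refine (ihbc_t3bRed_mk 𝔓 (M * e) h49 hK _).trans ?_
  unfold alpfClass
  subst hDbdef
  have h2 : ((finrankAlong (IsLocalRing.ResidueField ↥𝔓.P) (mltl9Phib 𝔓 M e) : ℕ) : ℤ)
      • (Pic0.mk ⟨alpfDivQuot (K := IsLocalRing.ResidueField ↥𝔓.P) p yb, hDbdeg⟩ :
          Pic0 (IsLocalRing.ResidueField ↥𝔓.P) ↥(tbBarF 𝔓 (M * e)))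
      = Pic0.mk (((finrankAlong (IsLocalRing.ResidueField ↥𝔓.P) (mltl9Phib 𝔓 M e) : ℕ) : ℤ)
          • ⟨alpfDivQuot (K := IsLocalRing.ResidueField ↥𝔓.P) p yb, hDbdeg⟩) := rfl
  refine Eq.trans ?_ h2.symm
  refine congrArg Pic0.mk (Subtype.ext ?_)
  refine (coe_t3aRedDiv0 (t3a_good_modular 𝔓 (M * e) h49 hK) _).trans ?_
  exact hΛ

end Red

section Main

variable (𝔓 : FFPlace) (M e : ℕ) [NeZero M] [NeZero e]

/-- Step 2: the class of `ȳ` vanishes -/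
theorem mltl9_cmp_zero (h49 : 4 ∣ M * e ∨ 9 ∣ M * e) (hK : ¬ 𝔓.p ∣ M * e)
    (S : Set Nat.Primes) (hSM : ∀ ℓ ∈ S, ¬ (ℓ : ℕ) ∣ M)
    (hS : ∀ ℓ ∈ S, ¬ (ℓ : ℕ) ∣ M * e ∧ (ℓ : ℕ) ≠ 𝔓.p)
    (p : ℕ) (hp : p.Prime)
    (hpe : ¬ p ∣ finrankAlong (IsLocalRing.ResidueField ↥𝔓.P) (mltl9Phib 𝔓 M e))
    (a : Nat.Primes → ℤ)
    (hfin : ∀ f : ℕ, 0 < f →
      {c : Pic0 (IsLocalRing.ResidueField ↥𝔓.P) ↥(tbBarF 𝔓 (M * e)) |
        (t3bPhi 𝔓 (M * e)) ^ f • c = c}.Finite)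
    (h0 : ∀ x : JZero M, p • x = 0 → (∀ ℓ ∈ S, heckeOperatorBar M ℓ x = a ℓ • x) → x = 0)
    [HasPrincipalDivisors (IsLocalRing.ResidueField ↥𝔓.P) ↥(tbBarF 𝔓 (M * e))]
    (yb : (↥(tbBarF 𝔓 (M * e)))ˣ)
    (hybM : ((yb : ↥(tbBarF 𝔓 (M * e))) : LaurentSeries (IsLocalRing.ResidueField ↥𝔓.P))
      ∈ tbBarF 𝔓 M)
    (hyb : ∀ s : Place (IsLocalRing.ResidueField ↥𝔓.P) ↥(tbBarF 𝔓 (M * e)),
      (p : ℤ) ∣ s.ord (yb : ↥(tbBarF 𝔓 (M * e))))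
    (heig : ∀ ℓ : ↥S, ihbcRhoBar 𝔓 (M * e) h49 hK S hS (FreeAlgebra.ι ℤ ℓ)
      (alpfClass hp.ne_zero yb hyb) = a ℓ.1 • alpfClass hp.ne_zero yb hyb) :
    alpfClass hp.ne_zero yb hyb = 0 := by
  haveI : IsAlgClosed (IsLocalRing.ResidueField ↥𝔓.P) := tb_isAlgClosed_residueField 𝔓.P
  obtain ⟨h, hθ, hkill⟩ := ihbc_exists_killer M S hSM p hp a h0
  have hpxb : (p : ℤ) • alpfClass hp.ne_zero yb hyb = 0 := ihbc_class_torsion hp.ne_zero yb hyb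
  have heig' := ihbc_free_eigen S (ihbcRhoBar 𝔓 (M * e) h49 hK S hS) a
    (alpfClass hp.ne_zero yb hyb) heig h
  obtain ⟨z, hz⟩ := mltl9_red_pull_class 𝔓 M e h49 hK hp.ne_zero yb hybM hyb
  have h1 := ihbc_pull_zero 𝔓 (Dvd.intro e rfl : M ∣ M * e) h49 hK S (fun ℓ hℓ => (hS ℓ hℓ).1)
    hfin h hkill z
  have h2 := ihbc_red_rho 𝔓 (M * e) h49 hK S hS h (dlwPullDvd (Dvd.intro e rfl : M ∣ M * e) z)
  rw [h1, hz, map_zsmul, heig'] at h2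
  -- conclude
  have hθZ : ¬ (p : ℤ) ∣ ihbcThetaZ S a h := by
    intro hd
    apply hθ
    rw [ihbcTheta_eq]
    exact (ZMod.intCast_zmod_eq_zero_iff_dvd _ p).mpr hd
  have hpZ : Prime (p : ℤ) := Nat.prime_iff_prime_int.mp hp
  have hcop : IsCoprime (p : ℤ)
      (((finrankAlong (IsLocalRing.ResidueField ↥𝔓.P) (mltl9Phib 𝔓 M e) : ℕ) : ℤ)
        * ihbcThetaZ S a h) := by
    refine (Prime.coprime_iff_not_dvd hpZ).mpr ?_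
    intro hd
    rcases hpZ.dvd_or_dvd hd with h4 | h4
    · exact hpe (by exact_mod_cast h4)
    · exact hθZ h4
  have h6 : (((finrankAlong (IsLocalRing.ResidueField ↥𝔓.P) (mltl9Phib 𝔓 M e) : ℕ) : ℤ)
      * ihbcThetaZ S a h) • alpfClass hp.ne_zero yb hyb = 0 := by
    rw [mul_smul]
    exact h2.symm
  exact ihbc_eq_zero_of_coprime _ _ _ hcop hpxb h6

/-- **(B3) for the cover `X₀(9 M) → X₀(M)`, `M` odd, at a place over `2`** — the literal body of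
helper3's `MltL1CmpNine p` (`Lib/MLT/L1/Two/Wire.lean`), for `p ≥ 5` -/
theorem mltl9_cmp_nine (p : ℕ) (hp : p.Prime) (hp5 : 5 ≤ p) (𝔓 : FFPlace) (M : ℕ) [NeZero M]
    (h𝔓 : 𝔓.p = 2) (h2M : ¬ 2 ∣ M) (W : WeierstrassCurve ℤ) (hΔ : W.Δ ≠ 0)
    (hW2 : ((2 : ℕ) : ℤ) ∣ W.Δ) (hirr : W.ModRepIsIrreducible p) :
    dlwEig M p W = ⊥ →
    ∀ yb : (↥(tbBarF 𝔓 (M * 9)))ˣ,
      (((yb : ↥(tbBarF 𝔓 (M * 9))) : LaurentSeries (IsLocalRing.ResidueField ↥𝔓.P))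
        ∈ tbBarF 𝔓 M) →
      (∀ s : Place (IsLocalRing.ResidueField ↥𝔓.P) ↥(tbBarF 𝔓 (M * 9)),
        (p : ℤ) ∣ s.ord (yb : ↥(tbBarF 𝔓 (M * 9)))) →
      (∀ (ℓ : ℕ) [NeZero ℓ], ℓ.Prime → ¬ ℓ ∣ M * 9 * 𝔓.p → W.IsGoodPrimeFor ℓ → ℓ ≠ p →
        ∀ (ζ : (↥𝔓.P)ˣ)
          (hζK : IsPrimitiveRoot ((Units.map (𝔓.P.subtype : ↥𝔓.P →* Qb) ζ : Qbˣ) : Qb) ℓ)
          (hζk : IsPrimitiveRoot ((Units.map ((IsLocalRing.residue ↥𝔓.P : ↥𝔓.P →+*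
            IsLocalRing.ResidueField ↥𝔓.P) : ↥𝔓.P →* IsLocalRing.ResidueField ↥𝔓.P) ζ :
            (IsLocalRing.ResidueField ↥𝔓.P)ˣ) : IsLocalRing.ResidueField ↥𝔓.P) ℓ),
          ∃ (c : IsLocalRing.ResidueField ↥𝔓.P) (ub : (↥(tbBarF 𝔓 (M * 9)))ˣ), c ≠ 0 ∧
            tkrTilde ℓ hζk ((yb : ↥(tbBarF 𝔓 (M * 9))) :
                LaurentSeries (IsLocalRing.ResidueField ↥𝔓.P)) =
              HahnSeries.C c *
                (((yb ^ (W.apOfModel ℓ) * ub ^ p : (↥(tbBarF 𝔓 (M * 9)))ˣ) :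
                  ↥(tbBarF 𝔓 (M * 9))) : LaurentSeries (IsLocalRing.ResidueField ↥𝔓.P))) →
      ∃ (c : IsLocalRing.ResidueField ↥𝔓.P) (gb : (↥(tbBarF 𝔓 (M * 9)))ˣ), c ≠ 0 ∧
        ((yb : ↥(tbBarF 𝔓 (M * 9))) : LaurentSeries (IsLocalRing.ResidueField ↥𝔓.P)) =
          HahnSeries.C c * (((gb ^ p : (↥(tbBarF 𝔓 (M * 9)))ˣ) : ↥(tbBarF 𝔓 (M * 9))) :
            LaurentSeries (IsLocalRing.ResidueField ↥𝔓.P)) := by
  intro hEig yb hybM hyb hT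
  haveI : IsAlgClosed (IsLocalRing.ResidueField ↥𝔓.P) := tb_isAlgClosed_residueField 𝔓.P
  haveI : Fact p.Prime := ⟨hp⟩
  have hp2 : p ≠ 2 := by omega
  have hp3 : (3 : ℕ) ≠ p := by omega
  have hK : ¬ 𝔓.p ∣ M * 9 := by
    rw [h𝔓]
    intro h
    rcases (Nat.Prime.dvd_mul Nat.prime_two).mp h with h1 | h1
    · exact h2M h1
    · omega
  have h49 : 4 ∣ M * 9 ∨ 9 ∣ M * 9 := Or.inr (Dvd.intro_left M rfl)
  haveI := ihbc_hasPrincipalDivisors 𝔓 (M * 9) hK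
  haveI := tbq_bar_isSeparable (𝔓 := 𝔓) (N := M * 9) hK
  -- the index set
  obtain ⟨S, hSdef⟩ : ∃ S : Set Nat.Primes,
      S = {ℓ : Nat.Primes | ¬ (ℓ : ℕ) ∣ M ∧ W.IsGoodPrimeFor ℓ ∧ (ℓ : ℕ) ≠ p ∧ (ℓ : ℕ) ≠ 3} :=
    ⟨_, rfl⟩
  have hSmem : ∀ ℓ : Nat.Primes,
      ℓ ∈ S ↔ (¬ (ℓ : ℕ) ∣ M ∧ W.IsGoodPrimeFor ℓ ∧ (ℓ : ℕ) ≠ p ∧ (ℓ : ℕ) ≠ 3) := by
    intro ℓ
    rw [hSdef]
    rfl
  have hSM : ∀ ℓ ∈ S, ¬ (ℓ : ℕ) ∣ M := fun ℓ hℓ => ((hSmem ℓ).mp hℓ).1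
  have hSq : ∀ ℓ ∈ S, (ℓ : ℕ) ≠ 𝔓.p := by
    intro ℓ hℓ h
    apply ((hSmem ℓ).mp hℓ).2.1
    rw [h, h𝔓]
    exact hW2
  have hSK : ∀ ℓ ∈ S, ¬ (ℓ : ℕ) ∣ M * 9 := by
    intro ℓ hℓ h
    rcases (Nat.Prime.dvd_mul ℓ.2).mp h with h1 | h1
    · exact hSM ℓ hℓ h1
    · have h9 : (9 : ℕ) = 3 * 3 := by norm_num
      rw [h9] at h1
      have h3 : (ℓ : ℕ) ∣ 3 := by
        rcases (Nat.Prime.dvd_mul ℓ.2).mp h1 with h | h <;> exact h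
      exact ((hSmem ℓ).mp hℓ).2.2.2 ((Nat.prime_dvd_prime_iff_eq ℓ.2 Nat.prime_three).mp h3)
  have hS : ∀ ℓ ∈ S, ¬ (ℓ : ℕ) ∣ M * 9 ∧ (ℓ : ℕ) ≠ 𝔓.p := fun ℓ hℓ => ⟨hSK ℓ hℓ, hSq ℓ hℓ⟩
  have hEig3 := mltl9_eig_bot hp2 W hΔ hirr Nat.prime_three hp3 hEig
  have h0 : ∀ x : JZero M, p • x = 0 →
      (∀ ℓ ∈ S, heckeOperatorBar M ℓ x = (fun ℓ : Nat.Primes => W.apOfModel ℓ) ℓ • x) → x = 0 := by
    intro x hpx hx
    have hmem : x ∈ mltl9Eig M p 3 W :=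
      ⟨hpx, fun ℓ hℓ h1 h2 h3 h4 => hx ⟨ℓ, hℓ⟩ ((hSmem _).mpr ⟨h1, h2, h3, h4⟩)⟩
    rw [hEig3] at hmem
    exact (AddSubgroup.mem_bot).mp hmem
  have heig := ihbc_cmp_eigen 𝔓 (M * 9) h49 hK S hS hp.ne_zero
    (fun ℓ : Nat.Primes => W.apOfModel ℓ) yb hyb (by
      intro ℓ _ hℓ hℓS ζ hζK hζk
      have hndvd : ¬ ℓ ∣ M * 9 * 𝔓.p := by
        intro hd
        rcases (Nat.Prime.dvd_mul hℓ).mp hd with h1 | h1
        · exact hSK _ hℓS h1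
        · exact hSq _ hℓS ((Nat.prime_dvd_prime_iff_eq hℓ 𝔓.hp).mp h1)
      exact hT ℓ hℓ hndvd ((hSmem _).mp hℓS).2.1 ((hSmem _).mp hℓS).2.2.1 ζ hζK hζk)
  have hpe : ¬ p ∣ finrankAlong (IsLocalRing.ResidueField ↥𝔓.P) (mltl9Phib 𝔓 M 9) := by
    intro hd
    have hp2' : ¬ p ∣ 2 := fun h => by
      have := (Nat.prime_dvd_prime_iff_eq hp Nat.prime_two).mp h
      omega
    have hp3' : ¬ p ∣ 3 := fun h => by
      have := (Nat.prime_dvd_prime_iff_eq hp Nat.prime_three).mp h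
      omega
    rcases mltl9_finrank_nine 𝔓 M hK with h | h
    · rw [h, show (9 : ℕ) = 3 * 3 by norm_num] at hd
      rcases (Nat.Prime.dvd_mul hp).mp hd with h1 | h1 <;> exact hp3' h1
    · rw [h, show (12 : ℕ) = 2 * (2 * 3) by norm_num] at hd
      rcases (Nat.Prime.dvd_mul hp).mp hd with h1 | h1
      · exact hp2' h1
      · rcases (Nat.Prime.dvd_mul hp).mp h1 with h2 | h2
        · exact hp2' h2
        · exact hp3' h2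
  have hxb0 := mltl9_cmp_zero 𝔓 M 9 h49 hK S hSM hS p hp hpe
    (fun ℓ : Nat.Primes => W.apOfModel ℓ)
    (fun f hf => ihbq_fixed_finite_modular 𝔓 (M * 9) hK f hf) h0 yb hybM hyb heig
  -- `ȳ` is a constant times a `p`-th power
  obtain ⟨c, g, hc, hcg⟩ := ihbc_class_eq_zero (tbq_bar_isFunctionFieldGen 𝔓 (M * 9)) hp.ne_zero
    yb hyb hxb0
  refine ⟨c, g, hc, ?_⟩
  rw [hcg, MulMemClass.coe_mul, ihbc_coe_algebraMap]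

end Main

end

end Fermat.Agent.MLT
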